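import Fermat.Agent.Solvable.Burnside

/-!
# Class functions and irreducible characters

The irreducible characters occurring in the regular representation span the complex class
functions; so a class function of norm `1` whose inner products with them are integers is, up to
sign, one of them.
-/

set_option autoImplicit false
set_option linter.style.haveILetI false

noncomputable section

open Finset Module

namespace FA.FrobeniusGroups

variable {G : Type*} [Group G] [Fintype G]

/-- The pairing of complex functions on `G`. -/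
def pairing (f g : G → ℂ) : ℂ := (Nat.card G : ℂ)⁻¹ * ∑ x, f x * g x⁻¹

theorem pairing_comm (f g : G → ℂ) : pairing f g = pairing g f := by
  unfold pairing
  congr 1
  exact Fintype.sum_equiv (Equiv.inv G) _ _ fun x => by simp [mul_comm]

theorem pairing_sum_left {ι : Type*} (s : Finset ι) (c : ι → ℂ) (F : ι → G → ℂ) (g : G → ℂ) :
    pairing (fun x => ∑ i ∈ s, c i * F i x) g = ∑ i ∈ s, c i * pairing (F i) g := by
  simp only [pairing, sum_mul, mul_sum]
  rw [sum_comm]
  exact sum_congr rfl fun i _ => sum_congr rfl fun x _ => by ring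

theorem pairing_sub_left (f f' g : G → ℂ) :
    pairing (fun x => f x - f' x) g = pairing f g - pairing f' g := by
  simp only [pairing, sub_mul, sum_sub_distrib, mul_sub]

/-- A finite sum of irreducible characters of the regular representation, as often as they occur. -/
theorem exists_regular_atoms (G : Type*) [Group G] [Fintype G] [DecidableEq G] :
    ∃ L : Multiset (Subrepresentation (FA.Solvable.regular G)),
      (∀ W ∈ L, Representation.IsIrreducible W.toRepresentation) ∧
      ∀ x, (L.map fun W => W.toRepresentation.character x).sum =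
        if x = 1 then (Nat.card G : ℂ) else 0 := by
  let U : Subrepresentation (FA.Solvable.regular G) := ⊤
  obtain ⟨L, hL, hsum⟩ := FA.Solvable.exists_atoms (FA.Solvable.regular G) U
  refine ⟨L, hL, fun x => ?_⟩
  rw [← hsum, ← FA.Solvable.character_regular]
  refine (congrFun (Representation.char_iso (ρ := U.toRepresentation) (σ := FA.Solvable.regular G)
    (Representation.Equiv.mk (LinearEquiv.ofTop ⊤ rfl) fun h => ?_)) x)
  ext v
  rfl

/-- An irreducible representation is non-zero. -/
theorem finrank_ne_zero {V : Type*} [AddCommGroup V] [Module ℂ V] [FiniteDimensional ℂ V]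
    (ρ : Representation ℂ G V) [Representation.IsIrreducible ρ] : finrank ℂ V ≠ 0 := fun hd => by
  have h := FA.Solvable.inner_eq ρ ρ
  haveI := (Module.finrank_zero_iff (R := ℂ) (M := V)).1 hd
  simp [Representation.character, Subsingleton.elim (ρ _) 0] at h

/-- A class function orthogonal to an irreducible character kills its representation. -/
theorem sum_smul_eq_zero {V : Type*} [AddCommGroup V] [Module ℂ V] [FiniteDimensional ℂ V]
    (ρ : Representation ℂ G V) [Representation.IsIrreducible ρ] {f : G → ℂ}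
    (hf : ∀ g x, f (g * x * g⁻¹) = f x) (h0 : pairing f ρ.character = 0) :
    ∑ x, f x • ρ x⁻¹ = 0 := by
  set T : V →ₗ[ℂ] V := ∑ x, f x • ρ x⁻¹
  have hcomm : ∀ h, T ∘ₗ ρ h = ρ h ∘ₗ T := fun h => by
    show T * ρ h = ρ h * T
    simp only [T, sum_mul, mul_sum, smul_mul_assoc, mul_smul_comm, ← map_mul]
    refine Fintype.sum_equiv (MulAut.conj h⁻¹).toEquiv _ _ fun x => ?_
    show f x • ρ (x⁻¹ * h) = f (h⁻¹ * x * h⁻¹⁻¹) • ρ (h * (h⁻¹ * x * h⁻¹⁻¹)⁻¹)
    rw [hf]
    congr 2
    group
  obtain ⟨w, hw⟩ :=
    (Representation.IsIrreducible.algebraMap_intertwiningMap_bijective_of_isAlgClosed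
      (ρ := ρ)).2 ⟨T, hcomm⟩
  have hT : T = algebraMap ℂ (Module.End ℂ V) w :=
    (congrArg Representation.IntertwiningMap.toLinearMap hw).symm
  have htr := congrArg (LinearMap.trace ℂ V) hT
  simp only [T, map_sum, map_smul, smul_eq_mul, Algebra.algebraMap_eq_smul_one,
    LinearMap.trace_one] at htr
  have hsum : ∑ x, f x * LinearMap.trace ℂ V (ρ x⁻¹) = 0 := by
    have : (Nat.card G : ℂ)⁻¹ ≠ 0 := inv_ne_zero (Nat.cast_ne_zero.2 Nat.card_pos.ne')
    exact (mul_eq_zero.1 h0).resolve_left this
  rw [hsum, eq_comm, mul_eq_zero] at htr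
  rw [hT, htr.resolve_right (Nat.cast_ne_zero.2 (finrank_ne_zero ρ)), map_zero]

variable [DecidableEq G]

/-- **Completeness.** -/
theorem eq_zero_of_orthogonal {L : Multiset (Subrepresentation (FA.Solvable.regular G))}
    (hL : ∀ W ∈ L, Representation.IsIrreducible W.toRepresentation)
    (hsum : ∀ x, (L.map fun W => W.toRepresentation.character x).sum =
      if x = 1 then (Nat.card G : ℂ) else 0) {f : G → ℂ} (hf : ∀ g x, f (g * x * g⁻¹) = f x)
    (h0 : ∀ W ∈ L, pairing f W.toRepresentation.character = 0) : f = 0 := by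
  funext y
  have hzero : ∀ W ∈ L, ∑ x, f x * W.toRepresentation.character (x⁻¹ * y) = 0 := fun W hW => by
    haveI := hL W hW
    have h := congrArg (fun T => LinearMap.trace ℂ W.toSubmodule (T * W.toRepresentation y))
      (sum_smul_eq_zero W.toRepresentation hf (h0 W hW))
    simp only [sum_mul, smul_mul_assoc, ← map_mul, map_sum, map_smul, smul_eq_mul, zero_mul,
      map_zero] at h
    exact h
  have h1 : ∑ x, f x * (L.map fun W => W.toRepresentation.character (x⁻¹ * y)).sum = 0 := by
    simp only [← Multiset.sum_map_mul_left, Finset.sum_eq_multiset_sum]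
    rw [Multiset.sum_map_sum_map]
    refine Multiset.sum_eq_zero fun z hz => ?_
    obtain ⟨W, hW, rfl⟩ := Multiset.mem_map.1 hz
    exact hzero W hW
  simp only [hsum, inv_mul_eq_one, mul_ite, mul_zero, sum_ite_eq', mem_univ, if_true] at h1
  exact (mul_eq_zero.1 h1).resolve_right (Nat.cast_ne_zero.2 Nat.card_pos.ne')

/-- **Norm one.** A class function of norm `1` with integral inner products and positive value at
`1` is an irreducible character. -/
theorem exists_character_eq {f : G → ℂ} (hf : ∀ g x, f (g * x * g⁻¹) = f x)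
    (hint : ∀ W : Subrepresentation (FA.Solvable.regular G),
      ∃ c : ℤ, pairing f W.toRepresentation.character = c)
    (hnorm : pairing f f = 1) {d : ℕ} (hd : f 1 = (d : ℂ)) (hd0 : d ≠ 0) :
    ∃ W : Subrepresentation (FA.Solvable.regular G), W.toRepresentation.character = f := by
  classical
  obtain ⟨L, hL, hsum⟩ := exists_regular_atoms G
  set S : Finset (G → ℂ) := (L.map fun W => W.toRepresentation.character).toFinset
  have hS : ∀ χ ∈ S, ∃ W ∈ L, W.toRepresentation.character = χ := fun χ hχ =>
    Multiset.mem_map.1 (Multiset.mem_toFinset.1 hχ)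
  have horth : ∀ χ ∈ S, ∀ ψ ∈ S, pairing χ ψ = if χ = ψ then 1 else 0 := fun χ hχ ψ hψ => by
    obtain ⟨A, hA, rfl⟩ := hS χ hχ
    obtain ⟨B, hB, rfl⟩ := hS ψ hψ
    haveI := hL A hA
    haveI := hL B hB
    exact FA.Solvable.inner_eq A.toRepresentation B.toRepresentation
  have hexp : f = fun x => ∑ χ ∈ S, pairing f χ * χ x := by
    have h := eq_zero_of_orthogonal hL hsum (f := fun x => f x - ∑ χ ∈ S, pairing f χ * χ x)
      (fun g x => ?_) fun W hW => ?_
    · funext x
      exact sub_eq_zero.1 (congrFun h x)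
    · rw [hf]
      congr 1
      refine sum_congr rfl fun χ hχ => ?_
      obtain ⟨A, -, rfl⟩ := hS χ hχ
      rw [Representation.char_conj]
    · have hW' : W.toRepresentation.character ∈ S :=
        Multiset.mem_toFinset.2 (Multiset.mem_map_of_mem _ hW)
      rw [pairing_sub_left, pairing_sum_left S (fun χ => pairing f χ) fun χ => χ,
        sum_congr rfl fun χ hχ => by rw [horth χ hχ _ hW'], sub_eq_zero]
      simp [hW']
  choose! c hc using fun χ (hχ : χ ∈ S) => show ∃ c : ℤ, pairing f χ = c by
    obtain ⟨W, -, rfl⟩ := hS χ hχ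
    exact hint W
  have hsq : ∑ χ ∈ S, c χ ^ 2 = 1 := by
    have h : pairing f f = ∑ χ ∈ S, pairing f χ * pairing f χ := by
      nth_rewrite 1 [hexp]
      rw [pairing_sum_left S (fun χ => pairing f χ) fun χ => χ]
      exact sum_congr rfl fun χ _ => by rw [pairing_comm χ f]
    rw [hnorm, sum_congr rfl fun χ hχ => by rw [hc χ hχ, ← sq]] at h
    exact_mod_cast h.symm
  obtain ⟨χ, hχ, hχc⟩ : ∃ χ ∈ S, c χ ≠ 0 := by
    by_contra h
    push Not at h
    rw [sum_eq_zero fun χ hχ => by rw [h χ hχ]; norm_num] at hsq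
    exact zero_ne_one hsq
  have hone : c χ ^ 2 = 1 ∧ ∀ ψ ∈ S, ψ ≠ χ → c ψ = 0 := by
    rw [← add_sum_erase S (fun ψ => c ψ ^ 2) hχ] at hsq
    have h1 : 1 ≤ c χ ^ 2 := Int.add_one_le_iff.2 (pow_two_pos_of_ne_zero hχc)
    have h2 : 0 ≤ ∑ ψ ∈ S.erase χ, c ψ ^ 2 := sum_nonneg fun ψ _ => sq_nonneg _
    refine ⟨by omega, fun ψ hψ hne => ?_⟩
    have h3 : ∑ ψ ∈ S.erase χ, c ψ ^ 2 = 0 := by omega
    exact pow_eq_zero_iff (n := 2) two_ne_zero |>.1
      ((sum_eq_zero_iff_of_nonneg fun ψ _ => sq_nonneg _).1 h3 ψ (mem_erase.2 ⟨hne, hψ⟩))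
  have hval : ∀ x, f x = c χ * χ x := fun x => by
    conv_lhs => rw [hexp]
    show ∑ ψ ∈ S, pairing f ψ * ψ x = _
    rw [sum_eq_single χ (fun ψ hψ hne => by rw [hc ψ hψ, hone.2 ψ hψ hne]; simp)
      (fun h => absurd hχ h), hc χ hχ]
  obtain ⟨W, -, rfl⟩ := hS χ hχ
  refine ⟨W, funext fun x => ?_⟩
  rcases sq_eq_one_iff.1 hone.1 with h | h
  · rw [hval x, h, Int.cast_one, one_mul]
  · have h1 := hval 1
    rw [hd, h, Representation.char_one, Int.cast_neg, Int.cast_one, neg_one_mul,
      eq_neg_iff_add_eq_zero] at h1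
    exact absurd (by exact_mod_cast h1 : d + finrank ℂ W.toSubmodule = 0) (by omega)

end FA.FrobeniusGroups

end
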