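import Mathlib.GroupTheory.Index
import Mathlib.GroupTheory.Coset.Card
import Mathlib.Algebra.BigOperators.Group.Finset.Basic
import Mathlib.Algebra.BigOperators.GroupWithZero.Action
import Mathlib.Algebra.Group.Conj
import Mathlib.Data.Complex.Basic
import Mathlib.Tactic.Group

/-!
# Subgroups meeting their conjugates trivially

If `H` meets `g H g⁻¹` trivially for all `g ∉ H`, the conjugates of `H \ {1}` are disjoint and as
many as the cosets, so a sum of a class function splits over the rest and over `H \ {1}`, and a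
class function on `H` extends to `G`, constant on the rest.
-/

set_option autoImplicit false
set_option linter.style.haveILetI false

noncomputable section

open Finset

namespace FA.FrobeniusGroups

variable {G : Type*} [Group G]

/-- `H` meets its conjugates by outside elements trivially. -/
def Malnormal (H : Subgroup G) : Prop := ∀ g ∉ H, ∀ x ∈ H, g * x * g⁻¹ ∈ H → x = 1

/-- `1` and the elements conjugate to no element of `H`. -/
def remainder (H : Subgroup G) : Set G := {x | x = 1 ∨ ∀ g, g * x * g⁻¹ ∉ H}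

variable {H : Subgroup G}

theorem remainder_conj {x : G} (hx : x ∈ remainder H) (g : G) : g * x * g⁻¹ ∈ remainder H :=
  hx.imp (fun h => by rw [h]; simp) fun h g' => by
    rw [show g' * (g * x * g⁻¹) * g'⁻¹ = g' * g * x * (g' * g)⁻¹ by group]
    exact h _

theorem remainder_inv {x : G} (hx : x ∈ remainder H) : x⁻¹ ∈ remainder H :=
  hx.imp (fun h => by rw [h, inv_one]) fun h g hg => h g <| by
    have := H.inv_mem hg
    rwa [show (g * x⁻¹ * g⁻¹)⁻¹ = g * x * g⁻¹ by group] at this

/-- A non-trivial element of `H` is outside the remainder. -/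
theorem notMem_remainder {x : G} (hx : x ∈ H) (h1 : x ≠ 1) : x ∉ remainder H := fun h =>
  h.elim h1 fun h' => h' 1 (by simpa using hx)

/-- Elements of `H` conjugate in `G` are conjugate in `H`. -/
theorem conj_mem_subgroup (hH : Malnormal H) {x : G} (hx : x ∈ H) (h1 : x ≠ 1) {g : G}
    (hg : g * x * g⁻¹ ∈ H) : g ∈ H :=
  by_contra fun h => h1 (hH g h x hx hg)

open scoped Classical in
/-- The extension of a class function on `H`, constant on the remainder. -/
def extend (H : Subgroup G) (φ : H → ℂ) (x : G) : ℂ :=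
  if h : ∃ g, g * x * g⁻¹ ∈ H then φ ⟨_, h.choose_spec⟩ else φ 1

/-- The extension on a conjugate of an element of `H`. -/
theorem extend_eq (hH : Malnormal H) {φ : H → ℂ} (hφ : ∀ a h, φ (a * h * a⁻¹) = φ h) {x g : G}
    (hg : g * x * g⁻¹ ∈ H) : extend H φ x = φ ⟨_, hg⟩ := by
  have hex : ∃ g, g * x * g⁻¹ ∈ H := ⟨g, hg⟩
  rw [extend, dif_pos hex]
  set c := hex.choose
  have hc := hex.choose_spec
  rcases eq_or_ne x 1 with rfl | h1
  · congr 1
    ext
    simp
  have hne : c * x * c⁻¹ ≠ 1 := fun e => h1 (conj_eq_one_iff.1 e)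
  have he : (g * c⁻¹) * (c * x * c⁻¹) * (g * c⁻¹)⁻¹ = g * x * g⁻¹ := by group
  have hm := conj_mem_subgroup hH hc hne (he ▸ hg)
  rw [← hφ ⟨_, hm⟩ ⟨_, hc⟩]
  congr 1
  exact Subtype.ext he

/-- The extension on the remainder. -/
theorem extend_remainder (hH : Malnormal H) {φ : H → ℂ} (hφ : ∀ a h, φ (a * h * a⁻¹) = φ h) {x : G}
    (hx : x ∈ remainder H) : extend H φ x = φ 1 := by
  rcases hx with rfl | hx
  · rw [extend_eq hH hφ (g := 1) (by simp)]
    congr 1
    ext
    simp
  · rw [extend, dif_neg (not_exists.2 hx)]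

/-- The extension on `H`. -/
theorem extend_coe (hH : Malnormal H) {φ : H → ℂ} (hφ : ∀ a h, φ (a * h * a⁻¹) = φ h) (h : H) :
    extend H φ (h : G) = φ h := by
  rw [extend_eq hH hφ (g := 1) (by simp)]
  congr 1
  ext
  simp

/-- The extension is a class function. -/
theorem extend_conj (hH : Malnormal H) {φ : H → ℂ} (hφ : ∀ a h, φ (a * h * a⁻¹) = φ h) (c x : G) :
    extend H φ (c * x * c⁻¹) = extend H φ x := by
  by_cases hx : ∃ g, g * x * g⁻¹ ∈ H
  · obtain ⟨g, hg⟩ := hx
    have he : (g * c⁻¹) * (c * x * c⁻¹) * (g * c⁻¹)⁻¹ = g * x * g⁻¹ := by group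
    rw [extend_eq hH hφ hg, extend_eq hH hφ (g := g * c⁻¹) (he.symm ▸ hg)]
    congr 1
    exact Subtype.ext he
  · have hr : x ∈ remainder H := Or.inr (not_exists.1 hx)
    rw [extend_remainder hH hφ hr, extend_remainder hH hφ (remainder_conj hr c)]

variable [Fintype G] [DecidablePred (· ∈ H)] [DecidablePred (· ∈ remainder H)] [DecidableEq G]

/-- **The disjoint conjugates.** -/
theorem sum_split (hH : Malnormal H) {M : Type*} [AddCommMonoid M] (F : G → M)
    (hF : ∀ g x, F (g * x * g⁻¹) = F x) :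
    ∑ x, F x = (∑ x ∈ univ.filter (· ∈ remainder H), F x) +
      H.index • ∑ h ∈ univ.erase (1 : H), F h := by
  classical
  rw [← sum_filter_add_sum_filter_not univ (· ∈ remainder H) F]
  congr 1
  have h : ∑ a : (G ⧸ H) × {h : H // h ≠ 1}, F ((a.2 : H) : G) =
      ∑ x ∈ univ.filter (fun x => x ∉ remainder H), F x := by
    refine sum_bij (fun a _ => a.1.out * ((a.2 : H) : G) * a.1.out⁻¹) (fun a _ => ?_)
      (fun a _ b _ hab => ?_) (fun x hx => ?_) fun a _ => (hF _ _).symm
    · refine mem_filter.2 ⟨mem_univ _, fun h => ?_⟩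
      have h' := remainder_conj h a.1.out⁻¹
      rw [show a.1.out⁻¹ * (a.1.out * ((a.2 : H) : G) * a.1.out⁻¹) * a.1.out⁻¹⁻¹ = ((a.2 : H) : G)
        by group] at h'
      exact notMem_remainder (a.2 : H).2 (fun e => a.2.2 (Subtype.ext e)) h'
    · have he : (b.1.out⁻¹ * a.1.out) * ((a.2 : H) : G) * (b.1.out⁻¹ * a.1.out)⁻¹ =
          ((b.2 : H) : G) := by
        rw [show (b.1.out⁻¹ * a.1.out) * ((a.2 : H) : G) * (b.1.out⁻¹ * a.1.out)⁻¹ =
          b.1.out⁻¹ * (a.1.out * ((a.2 : H) : G) * a.1.out⁻¹) * b.1.out by group]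
        rw [hab]
        group
      have hm := conj_mem_subgroup hH (a.2 : H).2 (fun e => a.2.2 (Subtype.ext e))
        (he ▸ (b.2 : H).2)
      have h1 : b.1 = a.1 := by
        rw [← QuotientGroup.out_eq' b.1, ← QuotientGroup.out_eq' a.1, QuotientGroup.eq]
        exact hm
      refine Prod.ext h1.symm (Subtype.ext (Subtype.ext ?_))
      rw [h1, inv_mul_cancel, one_mul, inv_one, mul_one] at he
      exact he
    · obtain ⟨h1, g, hg⟩ : x ≠ 1 ∧ ∃ g, g * x * g⁻¹ ∈ H := by
        simpa [remainder] using (mem_filter.1 hx).2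
      set q : G ⧸ H := QuotientGroup.mk g⁻¹
      obtain ⟨k, hk⟩ := QuotientGroup.mk_out_eq_mul H g⁻¹
      have hmem : q.out⁻¹ * x * q.out ∈ H := by
        rw [show q.out⁻¹ * x * q.out = (k : G)⁻¹ * (g * x * g⁻¹) * k by
          simp only [q, hk]; group]
        exact H.mul_mem (H.mul_mem (H.inv_mem k.2) hg) k.2
      refine ⟨(q, ⟨⟨_, hmem⟩, fun e => h1 ?_⟩), mem_univ _, ?_⟩
      · have := congrArg Subtype.val e
        simpa [mul_assoc, inv_mul_eq_one] using this
      · simp only
        group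
  rw [← h, Fintype.sum_prod_type]
  simp only [sum_const, card_univ]
  rw [← Nat.card_eq_fintype_card (α := G ⧸ H), ← Subgroup.index_eq_card]
  congr 1
  exact (sum_subtype _ (by simp) (fun h : H => F (h : G))).symm

/-- The remainder has `[G : H]` elements. -/
theorem card_remainder (hH : Malnormal H) :
    (univ.filter (· ∈ remainder H)).card = H.index := by
  have h := sum_split hH (fun _ : G => (1 : ℕ)) fun _ _ => rfl
  simp only [sum_const, smul_eq_mul, mul_one, card_erase_of_mem (mem_univ _), card_univ] at h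
  have h2 := H.index_mul_card
  rw [Nat.card_eq_fintype_card, Nat.card_eq_fintype_card] at h2
  have h3 : H.index * Fintype.card H = H.index * (Fintype.card H - 1) + H.index := by
    rw [← Nat.mul_succ, Nat.succ_eq_add_one, Nat.sub_add_cancel Fintype.card_pos]
  omega

end FA.FrobeniusGroups

end
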