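import Fermat.Agent.FrobeniusGroups.ClassFunctions
import Fermat.Agent.FrobeniusGroups.Counting
import Mathlib.GroupTheory.Complement

/-!
# The Frobenius kernel

For an irreducible character `θ` of a subgroup `H` meeting its conjugates trivially, the extension
constant on the remainder has norm `1` and integral inner products, hence is an irreducible
character of `G`; it is trivial on the remainder and these characters separate `H` from `1`, so
the remainder is the common kernel, a normal subgroup complementary to `H`.
-/

set_option autoImplicit false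
set_option linter.style.haveILetI false

noncomputable section

open Finset Module

namespace FA.FrobeniusGroups

variable {G : Type*} [Group G] [Fintype G] {H : Subgroup G}

open scoped Classical in
/-- The inner product of an extension with a class function. -/
theorem pairing_extend (hH : Malnormal H) {φ : H → ℂ} (hφ : ∀ a h, φ (a * h * a⁻¹) = φ h)
    {F : G → ℂ} (hF : ∀ g x, F (g * x * g⁻¹) = F x) :
    pairing (extend H φ) F = φ 1 * pairing (fun _ => 1) F + pairing φ (fun h => F h) -
      φ 1 * pairing (fun _ : H => 1) (fun h => F h) := by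
  have hF' : ∀ g x, F ((g * x * g⁻¹)⁻¹) = F x⁻¹ := fun g x => by
    rw [show (g * x * g⁻¹)⁻¹ = g * x⁻¹ * g⁻¹ by group, hF]
  have h1 := sum_split hH (fun x => extend H φ x * F x⁻¹) fun g x => by
    rw [extend_conj hH hφ, hF']
  have h2 := sum_split hH (fun x => F x⁻¹) hF'
  have e1 : ∑ x ∈ univ.filter (· ∈ remainder H), extend H φ x * F x⁻¹ =
      φ 1 * ∑ x ∈ univ.filter (· ∈ remainder H), F x⁻¹ := by
    rw [mul_sum]
    exact sum_congr rfl fun x hx => by rw [extend_remainder hH hφ (mem_filter.1 hx).2]
  have e2 : ∑ h ∈ (univ : Finset H).erase 1, extend H φ h * F (h : G)⁻¹ =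
      ∑ h ∈ univ.erase 1, φ h * F (h : G)⁻¹ :=
    sum_congr rfl fun h _ => by rw [extend_coe hH hφ]
  rw [e1, e2, nsmul_eq_mul] at h1
  rw [nsmul_eq_mul] at h2
  have hsplit : ∀ k : H → ℂ, ∑ h, k h = k 1 + ∑ h ∈ univ.erase 1, k h := fun k =>
    (add_sum_erase _ _ (mem_univ _)).symm
  have hN : (Nat.card G : ℂ) = (H.index : ℂ) * (Nat.card H : ℂ) := by
    exact_mod_cast H.index_mul_card.symm
  have hi : (H.index : ℂ) ≠ 0 := Nat.cast_ne_zero.2 Subgroup.index_ne_zero_of_finite
  have hc : (Nat.card H : ℂ) ≠ 0 := Nat.cast_ne_zero.2 Nat.card_pos.ne'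
  simp only [pairing, one_mul, Subgroup.coe_inv, hsplit, inv_one, Subgroup.coe_one]
  rw [h1, h2, hN]
  field_simp
  ring

open scoped Classical in
/-- The norm of an extension. -/
theorem pairing_extend_self (hH : Malnormal H) {φ : H → ℂ} (hφ : ∀ a h, φ (a * h * a⁻¹) = φ h) :
    pairing (extend H φ) (extend H φ) = pairing φ φ := by
  have h1 := sum_split hH (fun x => extend H φ x * extend H φ x⁻¹) fun g x => by
    rw [show (g * x * g⁻¹)⁻¹ = g * x⁻¹ * g⁻¹ by group, extend_conj hH hφ, extend_conj hH hφ]
  have e1 : ∑ x ∈ univ.filter (· ∈ remainder H), extend H φ x * extend H φ x⁻¹ =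
      H.index • (φ 1 * φ 1) := by
    rw [← card_remainder hH, ← sum_const]
    exact sum_congr rfl fun x hx => by rw [extend_remainder hH hφ (mem_filter.1 hx).2,
      extend_remainder hH hφ (remainder_inv (mem_filter.1 hx).2)]
  have e2 : ∑ h ∈ (univ : Finset H).erase 1, extend H φ h * extend H φ (h : G)⁻¹ =
      ∑ h ∈ univ.erase 1, φ h * φ h⁻¹ :=
    sum_congr rfl fun h _ => by rw [← Subgroup.coe_inv, extend_coe hH hφ, extend_coe hH hφ]
  rw [e1, e2, ← smul_add] at h1
  have hsplit : ∀ k : H → ℂ, ∑ h, k h = k 1 + ∑ h ∈ univ.erase 1, k h := fun k =>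
    (add_sum_erase _ _ (mem_univ _)).symm
  unfold pairing
  rw [h1, hsplit, inv_one, nsmul_eq_mul, ← H.index_mul_card]
  have hi : (H.index : ℂ) ≠ 0 := Nat.cast_ne_zero.2 Subgroup.index_ne_zero_of_finite
  push_cast
  field_simp

/-- An inner product of characters is an integer. -/
theorem exists_int_pairing {K : Type*} [Group K] [Fintype K] {V W : Type*} [AddCommGroup V]
    [Module ℂ V] [FiniteDimensional ℂ V] [AddCommGroup W] [Module ℂ W] [FiniteDimensional ℂ W]
    (ρ : Representation ℂ K V) (σ : Representation ℂ K W) :
    ∃ c : ℤ, pairing ρ.character σ.character = c := by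
  haveI : Invertible (Nat.card K : ℂ) :=
    invertibleOfNonzero (Nat.cast_ne_zero.2 Nat.card_pos.ne')
  exact ⟨_, (Representation.card_inv_mul_sum_char_mul_char_eq_finrank σ ρ).trans
    (Int.cast_natCast _).symm⟩

/-- The average of a character is an integer. -/
theorem exists_int_average {K : Type*} [Group K] [Fintype K] {V : Type*} [AddCommGroup V]
    [Module ℂ V] [FiniteDimensional ℂ V] (σ : Representation ℂ K V) :
    ∃ c : ℤ, pairing (fun _ => 1) σ.character = c := by
  haveI : Invertible (Nat.card K : ℂ) :=
    invertibleOfNonzero (Nat.cast_ne_zero.2 Nat.card_pos.ne')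
  refine ⟨finrank ℂ (Representation.invariants σ), ?_⟩
  rw [Int.cast_natCast, ← Representation.card_inv_mul_sum_char_eq_finrank]
  unfold pairing
  congr 1
  exact Fintype.sum_equiv (Equiv.inv K) _ _ fun x => by simp

open scoped Classical in
/-- **Extending an irreducible representation.** -/
theorem exists_extension (hH : Malnormal H) {V : Type*} [AddCommGroup V] [Module ℂ V]
    [FiniteDimensional ℂ V] (θ : Representation ℂ H V) [Representation.IsIrreducible θ] :
    ∃ W : Subrepresentation (FA.Solvable.regular G),
      W.toRepresentation.character = extend H θ.character := by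
  have hφ : ∀ a h, θ.character (a * h * a⁻¹) = θ.character h := fun a h => θ.char_conj h a
  refine exists_character_eq (fun g x => extend_conj hH hφ g x) (fun W => ?_) ?_
    (d := finrank ℂ V) ?_ (finrank_ne_zero θ)
  · rw [pairing_extend hH hφ fun g x => W.toRepresentation.char_conj x g, θ.char_one]
    obtain ⟨a, ha⟩ := exists_int_average W.toRepresentation
    obtain ⟨b, hb⟩ := exists_int_pairing θ (W.toRepresentation.comp H.subtype)
    obtain ⟨c, hc⟩ := exists_int_average (K := H) (W.toRepresentation.comp H.subtype)
    refine ⟨(finrank ℂ V : ℤ) * a + b - (finrank ℂ V : ℤ) * c, ?_⟩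
    push_cast
    rw [← ha, ← hb, ← hc]
    rfl
  · rw [pairing_extend_self hH hφ, show pairing θ.character θ.character =
      if θ.character = θ.character then 1 else 0 from FA.Solvable.inner_eq θ θ, if_pos rfl]
  · rw [extend_remainder hH hφ (Or.inl rfl), θ.char_one]

open scoped Classical in
/-- A representation whose character has its value at `1` at `x` is trivial at `x`. -/
theorem apply_eq_one {K : Type*} [Group K] [Finite K] {V : Type*} [AddCommGroup V] [Module ℂ V]
    [FiniteDimensional ℂ V] (ρ : Representation ℂ K V) {x : K}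
    (h : ρ.character x = ρ.character 1) : ρ x = 1 := by
  set b := finBasis ℂ V
  refine (LinearMap.toMatrix b b).injective ?_
  rw [LinearMap.toMatrix_one]
  refine FA.LinearGroups.eq_one_of_trace' (orderOf_pos x).ne'
    (by rw [LinearMap.toMatrix_pow, ← map_pow, pow_orderOf_eq_one, map_one, LinearMap.toMatrix_one])
    ?_
  rw [← LinearMap.trace_eq_matrix_trace ℂ b, Fintype.card_fin]
  exact h.trans ρ.char_one

omit [Fintype G] in
open scoped Classical in
/-- **Frobenius' theorem.** -/
theorem exists_kernel [Finite G] (hH : Malnormal H) :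
    ∃ K : Subgroup G, K.Normal ∧ (K : Set G) = remainder H ∧ K.IsComplement' H := by
  haveI := Fintype.ofFinite G
  obtain ⟨L, hL, hsum⟩ := exists_regular_atoms H
  choose! W hW using fun (T : Subrepresentation (FA.Solvable.regular H)) (hT : T ∈ L) =>
    haveI := hL T hT
    exists_extension hH T.toRepresentation
  set K : Subgroup G := ⨅ (T : Subrepresentation (FA.Solvable.regular H)) (_ : T ∈ L),
    MonoidHom.ker (W T).toRepresentation
  have hmem : ∀ x, x ∈ K ↔ ∀ T ∈ L, (W T).toRepresentation x = 1 := fun x => by
    simp [K, Subgroup.mem_iInf, MonoidHom.mem_ker]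
  have hnorm : K.Normal := ⟨fun x hx g => (hmem _).2 fun T hT => by
    rw [map_mul, map_mul, (hmem x).1 hx T hT, mul_one, ← map_mul, mul_inv_cancel, map_one]⟩
  have hK : (K : Set G) = remainder H := by
    ext x
    refine ⟨fun hx => ?_, fun hx => (hmem x).2 fun T hT => ?_⟩
    · by_contra hnot
      obtain ⟨h1, g, hg⟩ : x ≠ 1 ∧ ∃ g, g * x * g⁻¹ ∈ H := by simpa [remainder] using hnot
      set h : H := ⟨_, hg⟩
      have hh : (h : G) ∈ K := hnorm.conj_mem x hx g
      have hne : h ≠ 1 := fun e => h1 (conj_eq_one_iff.1 (congrArg Subtype.val e))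
      have hall : ∀ T ∈ L, T.toRepresentation.character h = T.toRepresentation.character 1 :=
        fun T hT => by
          have hφ : ∀ a k : H, T.toRepresentation.character (a * k * a⁻¹) =
              T.toRepresentation.character k := fun a k => T.toRepresentation.char_conj k a
          have e := congrFun (hW T hT) (h : G)
          rw [extend_coe hH hφ] at e
          have e' := congrFun (hW T hT) 1
          rw [extend_remainder hH hφ (Or.inl rfl)] at e'
          rw [← e, ← e', Representation.character, (hmem _).1 hh T hT, Representation.character,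
            map_one (W T).toRepresentation]
      have := hsum h
      rw [Multiset.map_congr rfl hall, hsum 1, if_pos rfl, if_neg hne] at this
      exact Nat.cast_ne_zero.2 Nat.card_pos.ne' this
    · have hφ : ∀ a k : H, T.toRepresentation.character (a * k * a⁻¹) =
          T.toRepresentation.character k := fun a k => T.toRepresentation.char_conj k a
      refine apply_eq_one _ ?_
      rw [hW T hT, extend_remainder hH hφ hx, extend_remainder hH hφ (Or.inl rfl)]
  refine ⟨K, hnorm, hK, Subgroup.isComplement'_of_card_mul_and_disjoint ?_ ?_⟩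
  · have hc : Nat.card K = H.index := by
      rw [← card_remainder hH, ← Fintype.card_subtype, ← Nat.card_eq_fintype_card]
      exact Nat.card_congr (Equiv.setCongr hK)
    rw [hc, H.index_mul_card]
  · refine Subgroup.disjoint_def.2 fun {x} hx hx' => by_contra fun h1 => ?_
    exact notMem_remainder hx' h1 (hK ▸ hx)

end FA.FrobeniusGroups

end
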